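import Fermat.Agent.S16.H664.Duality

set_option autoImplicit false

/-!
# S16, WP-ALG (helper664): the abstract reduction

`T` a commutative ring, finite free over `ℤ`, acting faithfully on a finite free `ℤ`-module `L`
with coefficient functionals `a k`; `φ : ℤ[X_ℓ] → T` surjective; `e` an eigenvalue system and
`s` the coefficients of the corresponding "Eisenstein series".  From a lower bound datum (`LB`)
and an upper bound statement (`UB`) we get `#(T / φ(ker e)) = n`.
-/

namespace Fermat.Agent.S16.H664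

open Module

section Abstract

variable {L T : Type*} [AddCommGroup L] [CommRing T]
  (act : T →+* Module.End ℤ L) (a : ℕ → L →ₗ[ℤ] ℤ) (g : Nat.Primes → T)
  (δ : Nat.Primes → Prop) [DecidablePred δ]

/-- The operators `t_k`: `a_1(t_k f) = a_k(f)`, and `t_k ≡ s(k)` modulo any ideal `J`
modulo which the generators are congruent to integers `e ℓ` for which `s` satisfies the
Hecke recursion. -/
theorem exists_tk_abs
    (hag : ∀ (ℓ : Nat.Primes) (n : ℕ) (f : L), a n (act (g ℓ) f) = a (n * ℓ) f +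
      (if δ ℓ then 0 else if (ℓ : ℕ) ∣ n then (ℓ : ℤ) * a (n / ℓ) f else 0))
    (J : Ideal T) (e : Nat.Primes → ℤ) (s : ℕ → ℤ)
    (hJ : ∀ ℓ, g ℓ - (e ℓ : T) ∈ J)
    (hs1 : s 1 = 1)
    (hs : ∀ (ℓ : Nat.Primes) (k : ℕ), 1 ≤ k → s (k * ℓ) +
      (if δ ℓ then 0 else if (ℓ : ℕ) ∣ k then (ℓ : ℤ) * s (k / ℓ) else 0) = e ℓ * s k) :
    ∀ k : ℕ, 1 ≤ k → ∃ t : T, (∀ f : L, a 1 (act t f) = a k f) ∧ t - (s k : T) ∈ J := by
  intro k
  induction k using Nat.strong_induction_on with
  | _ k ih =>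
    intro hk
    rcases Nat.eq_or_lt_of_le hk with rfl | hk1
    · refine ⟨1, fun f => by simp, ?_⟩
      rw [hs1]
      simp
    · -- `k > 1`: split off a prime factor
      obtain ⟨ℓ, k', hkk⟩ : ∃ (ℓ : Nat.Primes) (k' : ℕ), k = k' * ℓ :=
        ⟨⟨k.minFac, Nat.minFac_prime (by omega)⟩, k / k.minFac,
          (Nat.div_mul_cancel (Nat.minFac_dvd k)).symm⟩
      subst hkk
      have hℓ2 : 2 ≤ (ℓ : ℕ) := ℓ.2.two_le
      have hk'pos : 1 ≤ k' := by
        rcases Nat.eq_zero_or_pos k' with h0 | h0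
        · subst h0; omega
        · exact h0
      have hk'lt : k' < k' * (ℓ : ℕ) := by
        calc k' = k' * 1 := (mul_one _).symm
          _ < k' * (ℓ : ℕ) := Nat.mul_lt_mul_of_pos_left (by omega) hk'pos
      obtain ⟨t', ht', ht'J⟩ := ih k' hk'lt hk'pos
      have hgen : t' * g ℓ - ((e ℓ * s k' : ℤ) : T) ∈ J := by
        have : t' * g ℓ - ((e ℓ * s k' : ℤ) : T) =
            (t' - (s k' : T)) * g ℓ + (s k' : T) * (g ℓ - (e ℓ : T)) := by
          push_cast
          ring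
        rw [this]
        exact J.add_mem (J.mul_mem_right _ ht'J) (J.mul_mem_left _ (hJ ℓ))
      by_cases hcase : δ ℓ ∨ ¬ (ℓ : ℕ) ∣ k'
      · have hif : ∀ x : ℕ → ℤ, (if δ ℓ then (0 : ℤ) else
            if (ℓ : ℕ) ∣ k' then (ℓ : ℤ) * x (k' / (ℓ : ℕ)) else 0) = 0 := by
          intro x
          rcases hcase with h | h
          · rw [if_pos h]
          · by_cases hN : δ ℓ
            · rw [if_pos hN]
            · rw [if_neg hN, if_neg h]
        refine ⟨t' * g ℓ, fun f => ?_, ?_⟩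
        · rw [map_mul, Module.End.mul_apply, ht', hag, hif (fun m => a m f), add_zero]
        · have hsk : s (k' * ℓ) = e ℓ * s k' := by
            rw [← hs ℓ k' hk'pos, hif s, add_zero]
          rw [hsk]
          exact hgen
      · push Not at hcase
        obtain ⟨hN, hℓk'⟩ := hcase
        have hk''pos : 1 ≤ k' / (ℓ : ℕ) := Nat.div_pos (Nat.le_of_dvd hk'pos hℓk') (by omega)
        have hk''lt : k' / (ℓ : ℕ) < k' * (ℓ : ℕ) :=
          lt_of_le_of_lt (Nat.div_le_self _ _) hk'lt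
        obtain ⟨t'', ht'', ht''J⟩ := ih (k' / (ℓ : ℕ)) hk''lt hk''pos
        refine ⟨t' * g ℓ - (((ℓ : ℕ) : ℤ) : T) * t'', fun f => ?_, ?_⟩
        · rw [map_sub, map_mul, map_mul, LinearMap.sub_apply, Module.End.mul_apply,
            Module.End.mul_apply, map_sub, ht', hag, if_neg hN, if_pos hℓk', map_intCast,
            Module.End.intCast_apply, map_smul, ht'']
          simp
        · have hsk : s (k' * ℓ) = e ℓ * s k' - (ℓ : ℤ) * s (k' / (ℓ : ℕ)) := by
            rw [← hs ℓ k' hk'pos, if_neg hN, if_pos hℓk']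
            ring
          rw [hsk]
          have : t' * g ℓ - (((ℓ : ℕ) : ℤ) : T) * t'' -
              ((e ℓ * s k' - (ℓ : ℤ) * s (k' / (ℓ : ℕ)) : ℤ) : T) =
              (t' * g ℓ - ((e ℓ * s k' : ℤ) : T)) -
                (((ℓ : ℕ) : ℤ) : T) * (t'' - (s (k' / (ℓ : ℕ)) : T)) := by
            push_cast
            ring
          rw [this]
          exact J.sub_mem hgen (J.mul_mem_left _ ht''J)

/-- Lower-bound core: on forms which are "Eisenstein modulo `n`", the Hecke ring acts through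
the eigencharacter `e` modulo `n`. -/
theorem lb_core
    (hag : ∀ (ℓ : Nat.Primes) (n : ℕ) (f : L), a n (act (g ℓ) f) = a (n * ℓ) f +
      (if δ ℓ then 0 else if (ℓ : ℕ) ∣ n then (ℓ : ℤ) * a (n / ℓ) f else 0))
    (e : Nat.Primes → ℤ) (s : ℕ → ℤ)
    (hs1 : s 1 = 1)
    (hs : ∀ (ℓ : Nat.Primes) (k : ℕ), 1 ≤ k → s (k * ℓ) +
      (if δ ℓ then 0 else if (ℓ : ℕ) ∣ k then (ℓ : ℤ) * s (k / ℓ) else 0) = e ℓ * s k)
    (φ : MvPolynomial Nat.Primes ℤ →+* T) (hφg : ∀ ℓ, φ (MvPolynomial.X ℓ) = g ℓ)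
    (n : ℕ) (P : MvPolynomial Nat.Primes ℤ) :
    ∀ f : L, (∀ k, 1 ≤ k → ((a k f : ℤ) : ZMod n) = (a 1 f : ZMod n) * (s k : ZMod n)) →
      ∀ k, 1 ≤ k → ((a k (act (φ P) f) : ℤ) : ZMod n) =
        ((MvPolynomial.aeval e P : ℤ) : ZMod n) * (a 1 f : ZMod n) * (s k : ZMod n) := by
  induction P using MvPolynomial.induction_on with
  | C r =>
    intro f hf k hk
    have h0 : (MvPolynomial.C r : MvPolynomial Nat.Primes ℤ) =
        ((r : ℤ) : MvPolynomial Nat.Primes ℤ) := eq_intCast _ r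
    have h1 : φ (MvPolynomial.C r) = (r : T) := by
      rw [h0, map_intCast]
    rw [h1, map_intCast, Module.End.intCast_apply, map_smul, MvPolynomial.aeval_C]
    simp only [smul_eq_mul, Int.cast_mul, Algebra.algebraMap_self, RingHom.id_apply]
    rw [hf k hk]
    ring
  | add p q hp hq =>
    intro f hf k hk
    rw [map_add, map_add, LinearMap.add_apply, map_add, Int.cast_add, hp f hf k hk, hq f hf k hk,
      map_add, Int.cast_add]
    ring
  | mul_X p ℓ hp =>
    intro f hf k hk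
    have hf' : ∀ k, 1 ≤ k → ((a k (act (g ℓ) f) : ℤ) : ZMod n) =
        (e ℓ : ZMod n) * (a 1 f : ZMod n) * (s k : ZMod n) := by
      intro k hk
      have hkl : 1 ≤ k * (ℓ : ℕ) := Nat.mul_pos hk ℓ.2.pos
      rw [hag, Int.cast_add, hf _ hkl]
      have hsk := congrArg (Int.cast : ℤ → ZMod n) (hs ℓ k hk)
      rw [Int.cast_add, Int.cast_mul] at hsk
      by_cases hN : δ ℓ
      · rw [if_pos hN] at hsk ⊢
        rw [Int.cast_zero, add_zero] at hsk ⊢
        rw [hsk]; ring
      · rw [if_neg hN] at hsk ⊢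
        by_cases hd : (ℓ : ℕ) ∣ k
        · rw [if_pos hd] at hsk ⊢
          have hkd : 1 ≤ k / (ℓ : ℕ) := Nat.div_pos (Nat.le_of_dvd hk hd) ℓ.2.pos
          rw [Int.cast_mul, hf _ hkd]
          rw [Int.cast_mul] at hsk
          linear_combination (a 1 f : ZMod n) * hsk
        · rw [if_neg hd] at hsk ⊢
          rw [Int.cast_zero, add_zero] at hsk ⊢
          rw [hsk]; ring
    have h1 : ((a 1 (act (g ℓ) f) : ℤ) : ZMod n) = (e ℓ : ZMod n) * (a 1 f : ZMod n) := by
      rw [hf' 1 le_rfl, hs1]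
      simp
    have hf'' : ∀ k, 1 ≤ k → ((a k (act (g ℓ) f) : ℤ) : ZMod n) =
        (a 1 (act (g ℓ) f) : ZMod n) * (s k : ZMod n) := by
      intro k hk
      rw [hf' k hk, h1]
    rw [map_mul, map_mul, Module.End.mul_apply, hφg, hp _ hf'' k hk, h1, map_mul,
      MvPolynomial.aeval_X, Int.cast_mul]
    ring

end Abstract

section Main

variable {L T : Type*} [AddCommGroup L] [Module.Finite ℤ L] [Module.Free ℤ L]
  [CommRing T] [Module.Finite ℤ T] [Module.Free ℤ T]

/-- **Abstract reduction.**  The quotient of the Hecke ring by the image of the Eisenstein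
ideal has exactly `n` elements, given the lower bound datum `LB` and the upper bound `UB`. -/
theorem card_quot_abs
    (act : T →+* Module.End ℤ L) (hact : Function.Injective act)
    (a : ℕ → L →ₗ[ℤ] ℤ) (g : Nat.Primes → T) (δ : Nat.Primes → Prop) [DecidablePred δ]
    (hag : ∀ (ℓ : Nat.Primes) (n : ℕ) (f : L), a n (act (g ℓ) f) = a (n * ℓ) f +
      (if δ ℓ then 0 else if (ℓ : ℕ) ∣ n then (ℓ : ℤ) * a (n / ℓ) f else 0))
    (hsep : ∀ f, (∀ k, 1 ≤ k → a k f = 0) → f = 0)
    (hsat : ∀ (d : ℤ) (f : L), 0 < d → (∀ k, 1 ≤ k → d ∣ a k f) → ∃ g : L, d • g = f)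
    (e : Nat.Primes → ℤ) (s : ℕ → ℤ) (hs1 : s 1 = 1)
    (hs : ∀ (ℓ : Nat.Primes) (k : ℕ), 1 ≤ k → s (k * ℓ) +
      (if δ ℓ then 0 else if (ℓ : ℕ) ∣ k then (ℓ : ℤ) * s (k / ℓ) else 0) = e ℓ * s k)
    (φ : MvPolynomial Nat.Primes ℤ →+* T) (hφ : Function.Surjective φ)
    (hφg : ∀ ℓ, φ (MvPolynomial.X ℓ) = g ℓ)
    (I : Ideal (MvPolynomial Nat.Primes ℤ))
    (hI : ∀ P, P ∈ I ↔ MvPolynomial.aeval e P = 0)
    (n : ℕ) (hn : 1 ≤ n)
    (LB : ∃ h : L, ∃ c : ℤ, IsCoprime c (n : ℤ) ∧ ∀ k, 1 ≤ k → (n : ℤ) ∣ a k h - c * s k)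
    (UB : ∀ m : ℕ, 1 ≤ m → (∃ f : L, ∀ k, 1 ≤ k → (m : ℤ) ∣ a k f - s k) → m ∣ n) :
    Nat.card (T ⧸ Ideal.map φ I) = n := by
  classical
  set J : Ideal T := Ideal.map φ I with hJdef
  -- (1) `φ P ≡ e(P)` modulo `J`
  have hC : ∀ r : ℤ, φ (MvPolynomial.C r) = (r : T) := fun r => by
    have h0 : (MvPolynomial.C r : MvPolynomial Nat.Primes ℤ) =
        ((r : ℤ) : MvPolynomial Nat.Primes ℤ) := eq_intCast _ r
    rw [h0, map_intCast]
  have hφJ : ∀ P : MvPolynomial Nat.Primes ℤ,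
      φ P - ((MvPolynomial.aeval e P : ℤ) : T) ∈ J := by
    intro P
    have hmem : P - MvPolynomial.C (MvPolynomial.aeval e P) ∈ I := by
      rw [hI, map_sub, MvPolynomial.aeval_C]
      simp
    have := Ideal.mem_map_of_mem φ hmem
    rwa [map_sub, hC] at this
  have hJ : ∀ ℓ, g ℓ - (e ℓ : T) ∈ J := by
    intro ℓ
    have := hφJ (MvPolynomial.X ℓ)
    rwa [hφg, MvPolynomial.aeval_X] at this
  -- (2) `ℤ → T ⧸ J` is surjective
  set ψ : ℤ →+* T ⧸ J := Int.castRingHom (T ⧸ J) with hψdef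
  have hψ_apply : ∀ k : ℤ, ψ k = Ideal.Quotient.mk J (k : T) := fun k => by
    rw [hψdef, eq_intCast, map_intCast]
  have hψ : Function.Surjective ψ := by
    intro y
    obtain ⟨x, rfl⟩ := Ideal.Quotient.mk_surjective y
    obtain ⟨P, rfl⟩ := hφ x
    refine ⟨MvPolynomial.aeval e P, ?_⟩
    rw [hψ_apply]
    exact (Ideal.Quotient.eq.mpr (hφJ P)).symm
  have hker : ∀ k : ℤ, k ∈ RingHom.ker ψ ↔ (k : T) ∈ J := fun k => by
    rw [RingHom.mem_ker, hψ_apply, Ideal.Quotient.eq_zero_iff_mem]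
  -- (4) lower bound
  have hLB : ∀ k : ℤ, k ∈ RingHom.ker ψ → (n : ℤ) ∣ k := by
    intro k hk
    rw [hker] at hk
    obtain ⟨P, hPI, hPk⟩ := (Ideal.mem_map_iff_of_surjective φ hφ).mp hk
    obtain ⟨h, c, hc, hh⟩ := LB
    have hcast : ∀ k, 1 ≤ k → ((a k h : ℤ) : ZMod n) = (c : ZMod n) * (s k : ZMod n) := by
      intro k hk
      rw [← Int.cast_mul, eq_comm, ZMod.intCast_eq_intCast_iff_dvd_sub]
      exact hh k hk
    have h1 : ((a 1 h : ℤ) : ZMod n) = (c : ZMod n) := by
      rw [hcast 1 le_rfl, hs1]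
      simp
    have hM : ∀ k, 1 ≤ k → ((a k h : ℤ) : ZMod n) = (a 1 h : ZMod n) * (s k : ZMod n) := by
      intro k hk
      rw [hcast k hk, h1]
    have hQ : φ (P - MvPolynomial.C k) = 0 := by
      rw [map_sub, hPk, hC, sub_self]
    have key := lb_core act a g δ hag e s hs1 hs φ hφg n (P - MvPolynomial.C k) h hM 1 le_rfl
    rw [hQ, map_zero, LinearMap.zero_apply, map_zero, map_sub, (hI P).mp hPI,
      MvPolynomial.aeval_C, h1, hs1] at key
    simp only [Int.cast_zero, Algebra.algebraMap_self, RingHom.id_apply, zero_sub, Int.cast_neg,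
      Int.cast_one, mul_one] at key
    have hdvd : (n : ℤ) ∣ k * c := by
      rw [← ZMod.intCast_zmod_eq_zero_iff_dvd, Int.cast_mul]
      have := congrArg Neg.neg key
      simpa using this.symm
    exact (hc.symm.dvd_of_dvd_mul_right hdvd)
  -- (5) upper bound
  have hUB : (n : ℤ) ∈ RingHom.ker ψ := by
    have htk := exists_tk_abs act a g δ hag J e s hJ hs1 hs
    let t : ℕ → T := fun k => if h : 1 ≤ k then Classical.choose (htk k h) else 0
    have ht1 : ∀ k, 1 ≤ k → ∀ f, a k f = a 1 (act (t k) f) := by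
      intro k hk f
      simp only [t, dif_pos hk]
      exact ((Classical.choose_spec (htk k hk)).1 f).symm
    have ht2 : ∀ k, 1 ≤ k → t k - (s k : T) ∈ J := by
      intro k hk
      simp only [t, dif_pos hk]
      exact (Classical.choose_spec (htk k hk)).2
    -- lift the quotient map to a functional
    obtain ⟨lam, hlam⟩ := Module.projective_lifting_property
      (Algebra.linearMap ℤ (T ⧸ J)) ((Ideal.Quotient.mkₐ ℤ J).toLinearMap) (by
        intro y
        obtain ⟨k, hk⟩ := hψ y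
        exact ⟨k, by
          rw [Algebra.linearMap_apply, eq_intCast (algebraMap ℤ (T ⧸ J)) k, ← hk,
            eq_intCast ψ k]⟩)
    have hlam' : ∀ x : T, ψ (lam x) = Ideal.Quotient.mk J x := by
      intro x
      have := LinearMap.congr_fun hlam x
      rw [LinearMap.comp_apply, Algebra.linearMap_apply, eq_intCast] at this
      rw [eq_intCast ψ]
      exact this
    obtain ⟨f, hf⟩ := exists_repr_of_pairing act hact a t ht1 hsep hsat lam
    have hmem : ∀ k, 1 ≤ k → a k f - s k ∈ RingHom.ker ψ := by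
      intro k hk
      rw [RingHom.mem_ker, map_sub, ht1 k hk, hf, hlam', hψ_apply, ← map_sub]
      exact Ideal.Quotient.eq_zero_iff_mem.mpr (ht2 k hk)
    obtain ⟨x, hx⟩ := IsPrincipalIdealRing.principal (RingHom.ker ψ)
    have hx' : RingHom.ker ψ = Ideal.span {((x.natAbs : ℕ) : ℤ)} := by
      rw [Int.span_natAbs]
      exact hx
    rcases Nat.eq_zero_or_pos x.natAbs with h0 | hpos
    · exfalso
      have hbot : ∀ k, 1 ≤ k → a k f - s k = 0 := by
        intro k hk
        have := hmem k hk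
        rw [hx', h0] at this
        simpa using this
      have := UB (n + 1) (by omega) ⟨f, fun k hk => by rw [hbot k hk]; exact dvd_zero _⟩
      have := Nat.le_of_dvd (by omega) this
      omega
    · have hdvd := UB x.natAbs hpos ⟨f, fun k hk => by
        have := hmem k hk
        rw [hx'] at this
        exact Ideal.mem_span_singleton.mp this⟩
      rw [hx']
      exact Ideal.mem_span_singleton.mpr (Int.natCast_dvd_natCast.mpr hdvd)
  -- (6) the kernel
  have hkerψ : RingHom.ker ψ = Ideal.span {(n : ℤ)} := by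
    apply le_antisymm
    · intro k hk
      exact Ideal.mem_span_singleton.mpr (hLB k hk)
    · rw [Ideal.span_le, Set.singleton_subset_iff]
      exact hUB
  -- (7) the cardinality
  have e1 : (ℤ ⧸ RingHom.ker ψ) ≃+* (T ⧸ J) := RingHom.quotientKerEquivOfSurjective hψ
  have e2 : (ℤ ⧸ Ideal.span {(n : ℤ)}) ≃+* ZMod n := Int.quotientSpanNatEquivZMod n
  rw [← Nat.card_congr e1.toEquiv, hkerψ, Nat.card_congr e2.toEquiv, Nat.card_zmod]

end Main

end Fermat.Agent.S16.H664
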