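import Fermat.Prelude.Def_CuspForm_HeckeLocal
import Fermat.Prelude.Def_CuspForm_HeckeEvalForms
import Fermat.Prelude.Thm_ModularFormClass_qCoeff_heckeT
import Fermat.Prelude.Thm_ModularFormClass_qCoeff_heckeU
import Fermat.Prelude.Thm_CongruenceSubgroup_one_mem_strictPeriods_Gamma0

set_option autoImplicit false

/-!
# S16, WP-ALG (helper664): integral `q`-coefficients on the lattice `intLattice N 2`
and the action of the Hecke generators on them.
-/

namespace Fermat.Agent.S16.H664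

open CuspForm ModularFormClass CongruenceSubgroup

noncomputable section

variable {N : ℕ}

theorem one_mem_sp (N : ℕ) :
    (1 : ℝ) ∈ (Subgroup.map (Matrix.SpecialLinearGroup.mapGL ℝ) (Gamma0 N)).strictPeriods :=
  CongruenceSubgroup.one_mem_strictPeriods_Gamma0 N

theorem qCoeff_add (f g : CuspForm (Gamma0 N) 2) (n : ℕ) :
    qCoeff ⇑(f + g) n = qCoeff ⇑f n + qCoeff ⇑g n := by
  simp only [qCoeff, FunLike.coe_add]
  rw [ModularForm.qExpansion_add one_pos (one_mem_sp N) f g, map_add]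

theorem qCoeff_zero (n : ℕ) : qCoeff ⇑(0 : CuspForm (Gamma0 N) 2) n = 0 := by
  simp only [qCoeff, FunLike.coe_zero]
  rw [UpperHalfPlane.qExpansion_zero, map_zero]

theorem qCoeff_smul (c : ℂ) (f : CuspForm (Gamma0 N) 2) (n : ℕ) :
    qCoeff ⇑(c • f) n = c * qCoeff ⇑f n := by
  have h1 : ⇑(c • f) = c • ⇑f := by
    ext z
    simp
  simp only [qCoeff, h1]
  rw [ModularForm.qExpansion_smul one_pos (one_mem_sp N) c f]
  simp

theorem qCoeff_zsmul (c : ℤ) (f : CuspForm (Gamma0 N) 2) (n : ℕ) :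
    qCoeff ⇑(c • f) n = c * qCoeff ⇑f n := by
  rw [← Int.cast_smul_eq_zsmul ℂ c f, qCoeff_smul]

theorem qCoeff_cusp (f : CuspForm (Gamma0 N) 2) : qCoeff ⇑f 0 = 0 :=
  CuspFormClass.qExpansion_coeff_zero f one_pos (one_mem_sp N)

theorem eq_zero_of_qCoeff (f : CuspForm (Gamma0 N) 2) (h : ∀ n, 1 ≤ n → qCoeff ⇑f n = 0) :
    f = 0 := by
  have h0 : UpperHalfPlane.qExpansion 1 ⇑f = 0 := by
    ext n
    rcases Nat.eq_zero_or_pos n with rfl | hn
    · simpa [qCoeff] using qCoeff_cusp f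
    · simpa [qCoeff] using h n hn
  have hper := SlashInvariantFormClass.periodic_comp_ofComplex f (one_mem_sp N)
  have : Fact (IsCusp OnePoint.infty
      (Subgroup.map (Matrix.SpecialLinearGroup.mapGL ℝ) (Gamma0 N))) :=
    ⟨Subgroup.isCusp_of_mem_strictPeriods one_pos (one_mem_sp N)⟩
  have := (UpperHalfPlane.qExpansion_eq_zero_iff one_pos hper (ModularFormClass.holo f)
    (ModularFormClass.bdd_at_infty f)).mp h0
  exact DFunLike.coe_injective (this.trans FunLike.coe_zero.symm)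

/-- The set of forms with integral `q`-expansion, as a submodule. -/
def intSub (N : ℕ) : Submodule ℤ (CuspForm (Gamma0 N) 2) where
  carrier := {f | ∀ n : ℕ, ∃ m : ℤ, qCoeff f n = (m : ℂ)}
  add_mem' {f g} hf hg n := by
    obtain ⟨a, ha⟩ := hf n
    obtain ⟨b, hb⟩ := hg n
    exact ⟨a + b, by rw [qCoeff_add, ha, hb]; push_cast; ring⟩
  zero_mem' n := ⟨0, by rw [qCoeff_zero]; simp⟩
  smul_mem' c {f} hf n := by
    obtain ⟨a, ha⟩ := hf n
    exact ⟨c * a, by rw [qCoeff_zsmul, ha]; push_cast; ring⟩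

theorem intLattice_eq (N : ℕ) : CuspForm.intLattice N 2 = intSub N :=
  Submodule.span_eq (intSub N)

theorem mem_lat_iff (f : CuspForm (Gamma0 N) 2) :
    f ∈ CuspForm.intLattice N 2 ↔ ∀ n : ℕ, ∃ m : ℤ, qCoeff f n = (m : ℂ) := by
  rw [intLattice_eq]
  rfl

/-- The `n`-th `q`-coefficient of a lattice element, as an integer. -/
def aInt (n : ℕ) (f : ↥(intLattice N 2)) : ℤ :=
  Classical.choose ((mem_lat_iff f.1).1 f.2 n)

theorem aInt_spec (n : ℕ) (f : ↥(intLattice N 2)) :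
    qCoeff ⇑(f : CuspForm (Gamma0 N) 2) n = (aInt n f : ℂ) :=
  Classical.choose_spec ((mem_lat_iff f.1).1 f.2 n)

theorem aInt_eq_of (n : ℕ) (f : ↥(intLattice N 2)) (z : ℤ)
    (h : qCoeff ⇑(f : CuspForm (Gamma0 N) 2) n = (z : ℂ)) : aInt n f = z := by
  apply Int.cast_injective (α := ℂ)
  rw [← aInt_spec, h]

/-- The `n`-th `q`-coefficient as a `ℤ`-linear functional on the lattice. -/
def aLin (N : ℕ) (n : ℕ) : ↥(intLattice N 2) →ₗ[ℤ] ℤ where
  toFun := aInt n
  map_add' f g := by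
    apply aInt_eq_of
    rw [Submodule.coe_add, qCoeff_add, aInt_spec, aInt_spec]
    push_cast; ring
  map_smul' c f := by
    apply aInt_eq_of
    rw [Submodule.coe_smul, qCoeff_zsmul, aInt_spec]
    simp

theorem aLin_spec (n : ℕ) (f : ↥(intLattice N 2)) :
    qCoeff ⇑(f : CuspForm (Gamma0 N) 2) n = (aLin N n f : ℂ) := aInt_spec n f

theorem aLin_eq_of (n : ℕ) (f : ↥(intLattice N 2)) (z : ℤ)
    (h : qCoeff ⇑(f : CuspForm (Gamma0 N) 2) n = (z : ℂ)) : aLin N n f = z :=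
  aInt_eq_of n f z h

/-- separation: a lattice element with vanishing coefficients `a_k`, `k ≥ 1`, is zero. -/
theorem lat_sep (f : ↥(intLattice N 2)) (h : ∀ k, 1 ≤ k → aLin N k f = 0) : f = 0 := by
  apply Subtype.ext
  refine eq_zero_of_qCoeff _ fun n hn => ?_
  rw [aLin_spec, h n hn, Int.cast_zero]

/-- saturation: if `d ∣ a_k(f)` for all `k ≥ 1`, then `f` is divisible by `d` in the lattice. -/
theorem lat_sat (d : ℤ) (f : ↥(intLattice N 2)) (hd : 0 < d)
    (h : ∀ k, 1 ≤ k → d ∣ aLin N k f) : ∃ g : ↥(intLattice N 2), d • g = f := by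
  have hd' : (d : ℂ) ≠ 0 := by exact_mod_cast hd.ne'
  have hg : ((d : ℂ)⁻¹ • (f : CuspForm (Gamma0 N) 2)) ∈ intLattice N 2 := by
    rw [mem_lat_iff]
    intro n
    rcases Nat.eq_zero_or_pos n with rfl | hn
    · exact ⟨0, by rw [qCoeff_cusp]; simp⟩
    · obtain ⟨z, hz⟩ := h n hn
      refine ⟨z, ?_⟩
      rw [qCoeff_smul, aLin_spec, hz]
      push_cast
      field_simp
  refine ⟨⟨_, hg⟩, Subtype.ext ?_⟩
  rw [Submodule.coe_smul]
  change d • ((d : ℂ)⁻¹ • (f : CuspForm (Gamma0 N) 2)) = f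
  rw [← Int.cast_smul_eq_zsmul ℂ d, smul_smul, mul_inv_cancel₀ hd', one_smul]

end

end Fermat.Agent.S16.H664
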