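import Mathlib

set_option autoImplicit false

/-!
# S16, WP-ALG (helper664): abstract duality between a Hecke ring and its lattice

`L` a finite free `ℤ`-module, `T` a commutative ring, finite free over `ℤ`, acting faithfully
on `L`; coefficient functionals `a k : L → ℤ` with `a k f = a 1 (t k • f)`, separating and
saturated.  Then every `ℤ`-linear functional on `T` is of the form `x ↦ a 1 (x • f)`.
-/

namespace Fermat.Agent.S16.H664

open Module

/-- Abstract `q`-expansion duality: every functional on `T` comes from a (unique) lattice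
element. -/
theorem exists_repr_of_pairing
    {L T : Type*} [AddCommGroup L] [Module.Finite ℤ L] [Module.Free ℤ L]
    [CommRing T] [Module.Finite ℤ T] [Module.Free ℤ T]
    (act : T →+* Module.End ℤ L) (hact : Function.Injective act)
    (a : ℕ → L →ₗ[ℤ] ℤ) (t : ℕ → T)
    (hat : ∀ k, 1 ≤ k → ∀ f, a k f = a 1 (act (t k) f))
    (hsep : ∀ f, (∀ k, 1 ≤ k → a k f = 0) → f = 0)
    (hsat : ∀ (d : ℤ) (f : L), 0 < d → (∀ k, 1 ≤ k → d ∣ a k f) → ∃ g : L, d • g = f)
    (lam : T →ₗ[ℤ] ℤ) : ∃ f : L, ∀ x : T, a 1 (act x f) = lam x := by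
  classical
  -- the two pairing maps
  let Φ : L →ₗ[ℤ] (T →ₗ[ℤ] ℤ) :=
    { toFun := fun f =>
        { toFun := fun x => a 1 (act x f)
          map_add' := fun x y => by simp [map_add]
          map_smul' := fun c x => by
            simp only [zsmul_eq_mul, map_mul, map_intCast, eq_intCast, Int.cast_id]
            rw [Module.End.mul_apply]
            simp }
      map_add' := fun f g => by ext x; simp [map_add]
      map_smul' := fun c f => by ext x; simp [map_smul] }
  let Ψ : T →ₗ[ℤ] (L →ₗ[ℤ] ℤ) :=
    { toFun := fun x => (a 1).comp (act x)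
      map_add' := fun x y => by ext f; simp [map_add]
      map_smul' := fun c x => by
        ext f
        simp only [zsmul_eq_mul, map_mul, map_intCast, LinearMap.coe_comp, Function.comp_apply,
          eq_intCast, Int.cast_id, LinearMap.smul_apply, smul_eq_mul]
        rw [Module.End.mul_apply]
        simp }
  have hΦ : ∀ f x, Φ f x = a 1 (act x f) := fun _ _ => rfl
  have hΦinj : Function.Injective Φ := by
    rw [injective_iff_map_eq_zero]
    intro f hf
    refine hsep f fun k hk => ?_
    rw [hat k hk f, ← hΦ, hf]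
    rfl
  have hΨinj : Function.Injective Ψ := by
    rw [injective_iff_map_eq_zero]
    intro x hx
    have hx' : ∀ f, a 1 (act x f) = 0 := fun f => by
      have := LinearMap.congr_fun hx f
      simpa [Ψ] using this
    apply hact
    rw [map_zero]
    refine LinearMap.ext fun f => ?_
    refine hsep _ fun k hk => ?_
    rw [hat k hk, ← Module.End.mul_apply, ← map_mul, mul_comm, map_mul, Module.End.mul_apply]
    exact hx' _
  -- rank comparison
  have h1 : finrank ℤ L ≤ finrank ℤ T := by
    have := LinearMap.finrank_le_finrank_of_injective hΦinj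
    rwa [Module.finrank_linearMap_self] at this
  have h2 : finrank ℤ T ≤ finrank ℤ L := by
    have := LinearMap.finrank_le_finrank_of_injective hΨinj
    rwa [Module.finrank_linearMap_self] at this
  have hrk : finrank ℤ (LinearMap.range Φ) = finrank ℤ (T →ₗ[ℤ] ℤ) := by
    rw [LinearMap.finrank_range_of_inj hΦinj, Module.finrank_linearMap_self]
    exact le_antisymm h1 h2
  have hq : finrank ℤ ((T →ₗ[ℤ] ℤ) ⧸ LinearMap.range Φ) = 0 := by
    have := Submodule.finrank_quotient_add_finrank (LinearMap.range Φ)
    omega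
  have htors : Module.IsTorsion ℤ ((T →ₗ[ℤ] ℤ) ⧸ LinearMap.range Φ) :=
    Module.finrank_eq_zero_iff_isTorsion.mp hq
  obtain ⟨⟨d, hd⟩, hdl⟩ := @htors (Submodule.Quotient.mk lam)
  have hd0 : d ≠ 0 := nonZeroDivisors.ne_zero hd
  have hmem : d • lam ∈ LinearMap.range Φ := by
    have : (Submodule.Quotient.mk (d • lam) : (T →ₗ[ℤ] ℤ) ⧸ LinearMap.range Φ) = 0 := by
      rw [Submodule.Quotient.mk_smul]
      exact hdl
    exact (Submodule.Quotient.mk_eq_zero _).mp this
  -- normalise the sign of `d`
  obtain ⟨e, he, f, hf⟩ : ∃ e : ℤ, 0 < e ∧ ∃ f, Φ f = e • lam := by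
    obtain ⟨f, hf⟩ := hmem
    rcases lt_or_gt_of_ne hd0 with h | h
    · exact ⟨-d, by omega, -f, by rw [map_neg, hf, neg_smul]⟩
    · exact ⟨d, h, f, hf⟩
  obtain ⟨g, hg⟩ := hsat e f he fun k hk => by
    rw [hat k hk, ← hΦ, hf]
    exact ⟨lam (t k), by simp⟩
  refine ⟨g, fun x => ?_⟩
  have h3 : e * a 1 (act x g) = e * lam x := by
    have := LinearMap.congr_fun hf x
    rw [hΦ, ← hg] at this
    simpa using this
  exact mul_left_cancel₀ he.ne' h3

end Fermat.Agent.S16.H664
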