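import Fermat.Agent.S16.H664.Coeff

set_option autoImplicit false

/-!
# S16, WP-ALG (helper664): the Hecke generators on integral coefficients and the
operators `t_k` with `a_1(t_k f) = a_k(f)`.
-/

namespace Fermat.Agent.S16.H664

open CuspForm ModularFormClass CongruenceSubgroup ModularCurve

noncomputable section

variable {N : ℕ} [NeZero N]

/-- The generator of the lattice Hecke algebra attached to the prime `ℓ`
(`U_ℓ` if `ℓ ∣ N`, `T_ℓ` otherwise). -/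
def gen (N : ℕ) [NeZero N] (ℓ : Nat.Primes) : ↥(heckeLatticeAlgebra N ∅) :=
  latticeRestrictHom N ∅ (heckeFormsGen N 2 ℓ)

theorem coe_latticeRestrictHom_apply (t : ↥(heckeAlgebra N 2 ∅)) (f : ↥(intLattice N 2)) :
    (((latticeRestrictHom N ∅ t : ↥(heckeLatticeAlgebra N ∅)) :
      Module.End ℤ ↥(intLattice N 2)) f : CuspForm (Gamma0 N) 2) =
      (t : Module.End ℂ (CuspForm (Gamma0 N) 2)) (f : CuspForm (Gamma0 N) 2) := rfl

theorem aLin_gen (ℓ : Nat.Primes) (n : ℕ) (f : ↥(intLattice N 2)) :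
    aLin N n ((gen N ℓ).1 f) = aLin N (n * ℓ) f +
      (if (ℓ : ℕ) ∣ N then 0 else if (ℓ : ℕ) ∣ n then (ℓ : ℤ) * aLin N (n / ℓ) f else 0) := by
  apply aLin_eq_of
  rw [gen, coe_latticeRestrictHom_apply]
  by_cases h : (ℓ : ℕ) ∣ N
  · rw [heckeFormsGen_of_dvd h, if_pos h, heckeAlgebra.coe_U, CuspForm.coe_heckeULin_apply,
      ModularFormClass.qCoeff_heckeU _ (one_mem_sp N) ℓ.2.ne_zero, ModularForm.coeffHeckeU_apply,
      aLin_spec]
    simp
  · rw [heckeFormsGen_of_not_dvd h, if_neg h, heckeAlgebra.coe_T, CuspForm.coe_heckeTLin_apply,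
      ModularFormClass.qCoeff_heckeT _ (one_mem_sp N) ℓ.2.ne_zero, ModularForm.coeffHeckeT_apply,
      aLin_spec]
    by_cases h' : (ℓ : ℕ) ∣ n
    · rw [if_pos h', if_pos h', aLin_spec]
      have : ((2 : ℤ) - 1) = 1 := by norm_num
      rw [this, zpow_one]
      push_cast
      ring
    · rw [if_neg h', if_neg h']
      simp

/-- The ring homomorphism `ℤ[X_ℓ] → heckeAlgebra N k ∅` is surjective. -/
theorem heckeEvalForms_surjective (N : ℕ) [NeZero N] (k : ℤ) :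
    Function.Surjective (heckeEvalForms N k) := by
  rintro ⟨x, hx⟩
  refine Algebra.adjoin_induction
    (p := fun x hx => ∃ P, heckeEvalForms N k P = (⟨x, hx⟩ : ↥(heckeAlgebra N k ∅)))
    ?_ ?_ ?_ ?_ hx
  · rintro x (⟨ℓ, hℓ, hℓN, -, rfl⟩ | ⟨q, hqN, hq, -, rfl⟩)
    · obtain ⟨L, rfl⟩ : ∃ L : Nat.Primes, (L : ℕ) = ℓ := ⟨⟨ℓ, hℓ⟩, rfl⟩
      refine ⟨heckeGen L, ?_⟩
      rw [heckeEvalForms_heckeGen, heckeFormsGen_of_not_dvd hℓN]
      rfl
    · obtain ⟨L, rfl⟩ : ∃ L : Nat.Primes, (L : ℕ) = q := ⟨⟨q, hq⟩, rfl⟩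
      refine ⟨heckeGen L, ?_⟩
      rw [heckeEvalForms_heckeGen, heckeFormsGen_of_dvd hqN]
      rfl
  · intro r
    exact ⟨MvPolynomial.C r, heckeEvalForms_C N k r⟩
  · rintro x y hx hy ⟨P, hP⟩ ⟨Q, hQ⟩
    exact ⟨P + Q, by rw [map_add, hP, hQ]; rfl⟩
  · rintro x y hx hy ⟨P, hP⟩ ⟨Q, hQ⟩
    exact ⟨P * Q, by rw [map_mul, hP, hQ]; rfl⟩

end

end Fermat.Agent.S16.H664
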