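import Mathlib

set_option autoImplicit false

/-!
# S16, WP-ALG (helper664): the divisor sum prime to `p` and its Hecke recursion
-/

namespace Fermat.Agent.S16.H664

/-- `σ'(k) = ∑_{d ∣ k, p ∤ d} d`, the `k`-th coefficient of the weight-2 Eisenstein series
of level `Γ₀(p)`. -/
def sigmaP (p k : ℕ) : ℤ := ∑ d ∈ k.divisors with ¬ p ∣ d, (d : ℤ)

/-- the summand `d ↦ [p ∤ d] d`. -/
def sigF (p d : ℕ) : ℤ := if p ∣ d then 0 else (d : ℤ)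

theorem sigmaP_eq_sum (p k : ℕ) : sigmaP p k = ∑ d ∈ k.divisors, sigF p d := by
  unfold sigmaP sigF
  rw [Finset.sum_filter]
  refine Finset.sum_congr rfl fun d _ => ?_
  by_cases h : p ∣ d <;> simp [h]

theorem sigF_mul_prime {p ℓ : ℕ} (hp : p.Prime) (hℓ : ℓ.Prime) (hne : ℓ ≠ p) (d : ℕ) :
    sigF p (d * ℓ) = (ℓ : ℤ) * sigF p d := by
  unfold sigF
  have hpl : ¬ p ∣ ℓ := fun h => hne ((Nat.prime_dvd_prime_iff_eq hp hℓ).mp h).symm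
  by_cases h : p ∣ d
  · rw [if_pos h, if_pos (Dvd.dvd.mul_right h ℓ), mul_zero]
  · have h' : ¬ p ∣ d * ℓ := fun hd => (hp.dvd_mul.mp hd).elim h hpl
    rw [if_neg h, if_neg h']
    push_cast
    ring

theorem sigmaP_one {p : ℕ} (hp : p.Prime) : sigmaP p 1 = 1 := by
  have : ¬ p ∣ 1 := hp.one_lt.ne' ∘ Nat.dvd_one.mp
  rw [sigmaP_eq_sum, Nat.divisors_one, Finset.sum_singleton, sigF, if_neg this]
  rfl

theorem sigmaP_mul_self {p : ℕ} (hp : p.Prime) (k : ℕ) (hk : 1 ≤ k) :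
    sigmaP p (k * p) = sigmaP p k := by
  unfold sigmaP
  congr 1
  ext d
  simp only [Finset.mem_filter, Nat.mem_divisors]
  constructor
  · rintro ⟨⟨hd, -⟩, hpd⟩
    refine ⟨⟨?_, by omega⟩, hpd⟩
    have hcop : Nat.Coprime d p := (Nat.Coprime.symm ((Nat.Prime.coprime_iff_not_dvd hp).mpr hpd))
    exact hcop.dvd_of_dvd_mul_right hd
  · rintro ⟨⟨hd, hk0⟩, hpd⟩
    exact ⟨⟨Dvd.dvd.mul_right hd p, Nat.mul_ne_zero hk0 hp.ne_zero⟩, hpd⟩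

theorem divisors_mul_prime (k ℓ : ℕ) (hℓ : ℓ.Prime) (hk : k ≠ 0) :
    (k * ℓ).divisors = k.divisors ∪ k.divisors.image (· * ℓ) := by
  ext d
  simp only [Nat.mem_divisors, Finset.mem_union, Finset.mem_image]
  constructor
  · rintro ⟨hd, -⟩
    by_cases hℓd : ℓ ∣ d
    · right
      obtain ⟨d', rfl⟩ := hℓd
      refine ⟨d', ⟨?_, hk⟩, mul_comm _ _⟩
      rw [mul_comm k ℓ] at hd
      exact Nat.dvd_of_mul_dvd_mul_left hℓ.pos hd
    · left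
      have hcop : Nat.Coprime d ℓ :=
        (Nat.Coprime.symm ((Nat.Prime.coprime_iff_not_dvd hℓ).mpr hℓd))
      exact ⟨hcop.dvd_of_dvd_mul_right hd, hk⟩
  · rintro (⟨hd, -⟩ | ⟨d', ⟨hd', -⟩, rfl⟩)
    · exact ⟨Dvd.dvd.mul_right hd ℓ, Nat.mul_ne_zero hk hℓ.ne_zero⟩
    · exact ⟨Nat.mul_dvd_mul_right hd' ℓ, Nat.mul_ne_zero hk hℓ.ne_zero⟩

theorem divisors_inter_image (k ℓ : ℕ) (_hℓ : ℓ.Prime) (hk : k ≠ 0) :
    k.divisors ∩ k.divisors.image (· * ℓ) =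
      if ℓ ∣ k then (k / ℓ).divisors.image (· * ℓ) else ∅ := by
  ext d
  by_cases hℓk : ℓ ∣ k
  · rw [if_pos hℓk]
    simp only [Nat.mem_divisors, Finset.mem_inter, Finset.mem_image]
    constructor
    · rintro ⟨⟨hd, -⟩, d', -, rfl⟩
      refine ⟨d', ⟨?_, ?_⟩, rfl⟩
      · exact (Nat.dvd_div_iff_mul_dvd hℓk).mpr (by rwa [mul_comm])
      · intro h0
        have := Nat.div_mul_cancel hℓk
        rw [h0, zero_mul] at this
        exact hk this.symm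
    · rintro ⟨d', ⟨hd', -⟩, rfl⟩
      have h1 : d' * ℓ ∣ k := by
        have := (Nat.dvd_div_iff_mul_dvd hℓk).mp hd'
        rwa [mul_comm] at this
      exact ⟨⟨h1, hk⟩, d', ⟨(dvd_of_mul_right_dvd h1), hk⟩, rfl⟩
  · rw [if_neg hℓk]
    simp only [Nat.mem_divisors, Finset.mem_inter, Finset.mem_image, Finset.notMem_empty,
      iff_false]
    rintro ⟨⟨hd, -⟩, d', -, rfl⟩
    exact hℓk (dvd_of_mul_left_dvd hd)

theorem sum_image_mul_prime {p ℓ : ℕ} (hp : p.Prime) (hℓ : ℓ.Prime) (hne : ℓ ≠ p) (m : ℕ) :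
    ∑ d ∈ m.divisors.image (· * ℓ), sigF p d = (ℓ : ℤ) * sigmaP p m := by
  rw [Finset.sum_image, sigmaP_eq_sum, Finset.mul_sum]
  · exact Finset.sum_congr rfl fun d _ => sigF_mul_prime hp hℓ hne d
  · intro x _ y _ hxy
    exact Nat.eq_of_mul_eq_mul_right hℓ.pos hxy

theorem sigmaP_mul_prime {p ℓ : ℕ} (hp : p.Prime) (hℓ : ℓ.Prime) (hne : ℓ ≠ p) (k : ℕ)
    (hk : 1 ≤ k) :
    sigmaP p (k * ℓ) + (if ℓ ∣ k then (ℓ : ℤ) * sigmaP p (k / ℓ) else 0) =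
      (1 + (ℓ : ℤ)) * sigmaP p k := by
  have hk0 : k ≠ 0 := by omega
  have h1 := Finset.sum_union_inter (s₁ := k.divisors) (s₂ := k.divisors.image (· * ℓ))
    (f := sigF p)
  rw [← divisors_mul_prime k ℓ hℓ hk0, divisors_inter_image k ℓ hℓ hk0, ← sigmaP_eq_sum,
    ← sigmaP_eq_sum, sum_image_mul_prime hp hℓ hne] at h1
  by_cases hℓk : ℓ ∣ k
  · rw [if_pos hℓk] at h1 ⊢
    rw [sum_image_mul_prime hp hℓ hne] at h1
    linarith
  · rw [if_neg hℓk] at h1 ⊢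
    rw [Finset.sum_empty] at h1
    linarith

/-- The Hecke recursion of `σ'` in the form used by the glue theorem: `e ℓ = 1` for `ℓ = p`
and `e ℓ = 1 + ℓ` otherwise. -/
theorem sigmaP_rec {p : ℕ} (hp : p.Prime) (ℓ : Nat.Primes) (k : ℕ) (hk : 1 ≤ k) :
    sigmaP p (k * ℓ) +
      (if (ℓ : ℕ) ∣ p then 0 else if (ℓ : ℕ) ∣ k then (ℓ : ℤ) * sigmaP p (k / ℓ) else 0) =
        (if (ℓ : ℕ) ∣ p then 1 else 1 + ((ℓ : ℕ) : ℤ)) * sigmaP p k := by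
  by_cases h : (ℓ : ℕ) ∣ p
  · have hℓp : (ℓ : ℕ) = p := (Nat.prime_dvd_prime_iff_eq ℓ.2 hp).mp h
    rw [if_pos h, if_pos h, add_zero, one_mul, hℓp]
    exact sigmaP_mul_self hp k hk
  · have hne : (ℓ : ℕ) ≠ p := fun hh => h (hh ▸ dvd_rfl)
    rw [if_neg h, if_neg h]
    exact sigmaP_mul_prime hp ℓ.2 hne k hk

end Fermat.Agent.S16.H664
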