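import Fermat.Agent.S16.H664.Abstract
import Fermat.Agent.S16.H664.Hecke
import Fermat.Agent.S16.H664.SigmaP
import Fermat.Prelude.Def_HeckeGalois_EichlerShimura
import Fermat.Prelude.Def_ModularCurve_ModularUnit

set_option autoImplicit false

/-!
# S16, WP-ALG (helper664): the frozen S16 statement from (LB') and (UB')

`card_quot_of_LB_UB`: for a prime `p`, any function `s : ℕ → ℤ` satisfying the Hecke
recursion of the Eisenstein eigensystem (`s 1 = 1`, `s (k p) = s k`,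
`s (k ℓ) + [ℓ ∣ k] ℓ s (k / ℓ) = (1 + ℓ) s k` for primes `ℓ ≠ p`), a lower bound datum and the
upper bound statement give the frozen statement of S16.
-/

namespace Fermat.Agent.S16.H664

open CuspForm ModularFormClass CongruenceSubgroup ModularCurve

theorem eisensteinNumerator_pos (p : ℕ) (hp : p.Prime) : 1 ≤ eisensteinNumerator p := by
  unfold eisensteinNumerator
  have h1 : 0 < p - 1 := by have := hp.two_le; omega
  exact Nat.div_pos (Nat.le_of_dvd h1 (Nat.gcd_dvd_left _ _)) (Nat.gcd_pos_of_pos_left _ h1)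

set_option maxHeartbeats 1000000 in
set_option synthInstance.maxHeartbeats 200000 in
/-- **WP-ALG.** The frozen statement of S16 from the lower bound datum and the upper bound. -/
theorem card_quot_of_LB_UB (p : ℕ) [Fact p.Prime] (s : ℕ → ℤ) (hs1 : s 1 = 1)
    (hs : ∀ (ℓ : Nat.Primes) (k : ℕ), 1 ≤ k → s (k * ℓ) +
      (if (ℓ : ℕ) ∣ p then 0 else if (ℓ : ℕ) ∣ k then (ℓ : ℤ) * s (k / ℓ) else 0) =
        eisensteinSystem p ℓ * s k)
    (LB : ∃ h ∈ intLattice p 2, ∃ c : ℤ, IsCoprime c (eisensteinNumerator p : ℤ) ∧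
      ∀ k : ℕ, 1 ≤ k → ∃ z : ℤ,
        qCoeff ⇑h k = ((c * s k + (eisensteinNumerator p : ℤ) * z : ℤ) : ℂ))
    (UB : ∀ m : ℕ, 1 ≤ m →
      (∃ f ∈ intLattice p 2, ∀ k : ℕ, 1 ≤ k → ∃ z : ℤ,
        qCoeff ⇑f k = ((s k + (m : ℤ) * z : ℤ) : ℂ)) → m ∣ eisensteinNumerator p) :
    Nat.card (↥(heckeLatticeAlgebra p ∅) ⧸
        Ideal.map ((latticeRestrictHom p ∅).toRingHom.comp (heckeEvalForms p 2))
          (eisensteinIdeal p)) =
      eisensteinNumerator p := by
  have := intLattice.moduleFinite p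
  have := intLattice.moduleFree p
  refine card_quot_abs (L := ↥(intLattice p 2)) (T := ↥(heckeLatticeAlgebra p ∅))
    ((heckeLatticeAlgebra p ∅).val.toRingHom) Subtype.val_injective (aLin p) (gen p)
    (fun ℓ => (ℓ : ℕ) ∣ p) (fun ℓ n f => aLin_gen ℓ n f) lat_sep lat_sat
    (eisensteinSystem p) s hs1 hs
    ((latticeRestrictHom p ∅).toRingHom.comp (heckeEvalForms p 2)) ?_ ?_
    (eisensteinIdeal p) (fun P => mem_eigenIdeal_iff _ P)
    (eisensteinNumerator p) (eisensteinNumerator_pos p Fact.out) ?_ ?_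
  · exact (latticeRestrictHom_surjective p ∅).comp (heckeEvalForms_surjective p 2)
  · intro ℓ
    change latticeRestrictHom p ∅ (heckeEvalForms p 2 (heckeGen ℓ)) = gen p ℓ
    rw [heckeEvalForms_heckeGen]
    rfl
  · obtain ⟨h, hh, c, hc, hk⟩ := LB
    refine ⟨⟨h, hh⟩, c, hc, fun k hk1 => ?_⟩
    obtain ⟨z, hz⟩ := hk k hk1
    have := aLin_eq_of k ⟨h, hh⟩ _ hz
    rw [this]
    exact ⟨z, by ring⟩
  · intro m hm ⟨f, hf⟩
    refine UB m hm ⟨f.1, f.2, fun k hk1 => ?_⟩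
    obtain ⟨z, hz⟩ := hf k hk1
    refine ⟨z, ?_⟩
    rw [aLin_spec]
    congr 1
    linarith

/-- **WP-ALG, concrete form.** The frozen statement of S16 from (LB') and (UB') for
`σ'(k) = ∑_{d ∣ k, p ∤ d} d` (`sigmaP p k`). -/
theorem card_quot_of_LB_UB_sigmaP (p : ℕ) [Fact p.Prime]
    (LB : ∃ h ∈ intLattice p 2, ∃ c : ℤ, IsCoprime c (eisensteinNumerator p : ℤ) ∧
      ∀ k : ℕ, 1 ≤ k → ∃ z : ℤ,
        qCoeff ⇑h k = ((c * sigmaP p k + (eisensteinNumerator p : ℤ) * z : ℤ) : ℂ))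
    (UB : ∀ m : ℕ, 1 ≤ m →
      (∃ f ∈ intLattice p 2, ∀ k : ℕ, 1 ≤ k → ∃ z : ℤ,
        qCoeff ⇑f k = ((sigmaP p k + (m : ℤ) * z : ℤ) : ℂ)) → m ∣ eisensteinNumerator p) :
    Nat.card (↥(heckeLatticeAlgebra p ∅) ⧸
        Ideal.map ((latticeRestrictHom p ∅).toRingHom.comp (heckeEvalForms p 2))
          (eisensteinIdeal p)) =
      eisensteinNumerator p :=
  card_quot_of_LB_UB p (sigmaP p) (sigmaP_one Fact.out)
    (fun ℓ k hk => by
      have := sigmaP_rec (p := p) Fact.out ℓ k hk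
      rw [this]
      rfl) LB UB

end Fermat.Agent.S16.H664
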